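/-
T1B (S44), cell TORIC50, TORIC HUB PLUG, leaf **HubRad** (helper27): helper84's `Norm84.Iota.RadHyp`
at every node of the concrete hub model, for BOTH degeneracy maps and both charts.

`H : Hub9.HubParams p M' K`, `Hy : NodeNF37.ToricBaseInst.Hyp (piW p K) (tS H) (B0S H) (B1S H)
(O1S p M' K) (O2S p M' K)`, and an ABSTRACT fibre datum
`FD : FibreDatum (piW p K) (DS H).ρ0 (DS H).ρ1 En κ` with `hP : FD.P = Hy.P`, `hQ : FD.Q = Hy.Q`
(helper98's `FDS H Hy hrat` with `FDS_P`, `FDS_Q` plugs in; `κ := kW p K`, `hπκ := kW_piW p K`):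

* `hrad0S_of H Hy FD hP hQ hπκ α0 β0 hα0 hβ0 e : RadHyp α0 ((FD.ev e).comp (DS H).ρ0) ∧
    RadHyp β0 ((FD.ev e).comp (DS H).ρ0)` for ANY `α0 β0 : ↥(B0T H) →ₐ[Wb p K] ↥(B0S H)` with
  `hα0 : ∀ b, ↑(α0 b) = alphaST p M' K ↑b`, `hβ0 : ∀ b, ↑(β0 b) = betaST p M' K ↑b`
  (so `(MalphaS H).α0`, `(MbetaS H).α0` of `Hub9/Norm` or of `NormModel49/HubAdapter` plug in with
  `fun _ => rfl`);
* `hrad1S_of H Hy FD hP hQ hπκ α1 β1 hα1 hβ1 e` : the same on chart `1` (`ρ1`).

Inputs: helper87's `Toric87.RadItems.radHyp_chart0/1_of_items` with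
`hS := SurjItems` (`ES/P36/ModelOAt4.levelO_four_at` at the Frobenius inverse `H.frobInvAt`) and
`hC := Toric87.KronConv.kronConvItems_at_of_isInertial H.hK ..`.
-/
import Mathlib
import Fermat.Agent.T1B.Toric87.RadItems
import Fermat.Agent.T1B.Hub9.Data
import Fermat.Agent.ES.P36.ModelOAt4

set_option autoImplicit false
set_option synthInstance.maxHeartbeats 400000
set_option maxHeartbeats 1000000
set_option linter.unusedSectionVars false
set_option linter.unusedVariables false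
set_option linter.style.haveILetI false

noncomputable section

open HahnSeries IntermediateField

namespace Fermat.Agent.T1B.ToricHub27

open Fermat.Agent Fermat.Agent.RED.Interface4 Fermat.Agent.RED.PUR.GaussGen8
  Fermat.Agent.RED.BASE.EtaQuot12
  Fermat.Agent.ES.N34.ModelDefs9 Fermat.Agent.ES.N34.NumData13 Fermat.Agent.ES.N34.NodalCore13
  Fermat.Agent.ES.N35.SurjModel15
  Fermat.Agent.T1.Coh60 Fermat.Agent.T1.CechFormal70 Fermat.Agent.T1.Assembly41.Concrete
  Fermat.Agent.T1B.Local66.LocalBase Fermat.Agent.T1B.Hub9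
  Fermat.Agent.T1B.Toric11 Fermat.Agent.T1B.Toric98
  Fermat.Agent.T1B.Toric87.KronConv Fermat.Agent.T1B.Toric87.RadItems
  Fermat.Agent.T1B.NodeNF37.ToricBaseInst
open scoped Fermat.Agent.T1.Assembly41.FastInst

attribute [local instance] Fermat.Agent.T1.Coh60.algebra0 Fermat.Agent.T1.Coh60.algebra1
  Fermat.Agent.T1.Coh60.isScalarTower0 Fermat.Agent.T1.Coh60.isScalarTower1

variable {p M' : ℕ} [Fact p.Prime] [NeZero p] [NeZero M'] {K : IntermediateField ℚ Qbar}
  [FiniteDimensional ℚ K] (H : HubParams p M' K)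

include H in
/-- `SurjItems` at the hub field (`K` inertial, hence with a Frobenius inverse). -/
theorem surjItemsS : SurjItems 4 8 p M' (padicPlace p) K :=
  (Fermat.Agent.ES.P36.ModelOAt4.levelO_four_at (K := K) H.hp H.hp2 H.hpM H.h4 (hA p) H.hζ
    H.frobInvAt).2.2.1

include H in
/-- the converse Kronecker items at the hub field. -/
theorem kronConvItemsS : KronConvItems 4 8 p M' (padicPlace p) K :=
  kronConvItems_at_of_isInertial H.hK H.hp H.hpM (hA p)

variable (p K) in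
/-- the uniformiser dies in the residue field. -/
theorem kW_piW : algebraMap (Wb p K) (kW p K) (piW p K) = 0 := by
  rw [IsLocalRing.ResidueField.algebraMap_eq, IsLocalRing.residue_eq_zero_iff,
    maximalIdeal_eq_span_piW]
  exact Ideal.mem_span_singleton_self _

/-- **`RadHyp` at the nodes of the hub model, chart `0`**, for ANY two algebra homs `α0 β0` whose
underlying maps are `alpha`, `beta` (`(MalphaS H).α0`, `(MbetaS H).α0` with `fun _ => rfl`). -/
theorem hrad0S_of (Hy : Hyp (piW p K) (tS H) (B0S H) (B1S H) (O1S p M' K) (O2S p M' K))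
    {En : Type*} {κ : Type*} [Field κ] [Algebra (Wb p K) κ]
    (FD : FibreDatum (piW p K) (DS H).ρ0 (DS H).ρ1 En κ) (hP : FD.P = Hy.P) (hQ : FD.Q = Hy.Q)
    (hπκ : algebraMap (Wb p K) κ (piW p K) = 0)
    (α0 β0 : ↥(B0T H) →ₐ[Wb p K] ↥(B0S H))
    (hα0 : ∀ b : ↥(B0T H), ((α0 b : ↥(B0S H)) : FS p M' K) = alphaST p M' K (b : FT M' K))
    (hβ0 : ∀ b : ↥(B0T H), ((β0 b : ↥(B0S H)) : FS p M' K) = betaST p M' K (b : FT M' K))
    (e : En) :
    Norm84.Iota.RadHyp α0 ((FD.ev e).comp (DS H).ρ0) ∧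
      Norm84.Iota.RadHyp β0 ((FD.ev e).comp (DS H).ρ0) :=
  radHyp_chart0_of_items (surjItemsS H) (kronConvItemsS H) H.hp.pos H.htq (hES p M' K) (piW p K)
    (isUnif_piW p K) Hy (DS H) rfl FD hP hQ hπκ α0 β0 hα0 hβ0 e

/-- **`RadHyp` at the nodes of the hub model, chart `1`**, for ANY two algebra homs `α1 β1` whose
underlying maps are `alpha`, `beta`. -/
theorem hrad1S_of (Hy : Hyp (piW p K) (tS H) (B0S H) (B1S H) (O1S p M' K) (O2S p M' K))
    {En : Type*} {κ : Type*} [Field κ] [Algebra (Wb p K) κ]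
    (FD : FibreDatum (piW p K) (DS H).ρ0 (DS H).ρ1 En κ) (hP : FD.P = Hy.P) (hQ : FD.Q = Hy.Q)
    (hπκ : algebraMap (Wb p K) κ (piW p K) = 0)
    (α1 β1 : ↥(B1T H) →ₐ[Wb p K] ↥(B1S H))
    (hα1 : ∀ b : ↥(B1T H), ((α1 b : ↥(B1S H)) : FS p M' K) = alphaST p M' K (b : FT M' K))
    (hβ1 : ∀ b : ↥(B1T H), ((β1 b : ↥(B1S H)) : FS p M' K) = betaST p M' K (b : FT M' K))
    (e : En) :
    Norm84.Iota.RadHyp α1 ((FD.ev e).comp (DS H).ρ1) ∧
      Norm84.Iota.RadHyp β1 ((FD.ev e).comp (DS H).ρ1) :=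
  radHyp_chart1_of_items (surjItemsS H) (kronConvItemsS H) H.hp.pos H.htq (hES p M' K) (piW p K)
    (isUnif_piW p K) Hy (DS H) rfl FD hP hQ hπκ α1 β1 hα1 hβ1 e

end Fermat.Agent.T1B.ToricHub27
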